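import Fermat.Agent.RT.Germ.Conic

/-!
# The germ ideal of the product of the local relations

`germIdeal` is the kernel of the expansion at the diagonal point. It is prime, contains the
relations, vanishes at every point satisfying them, and is contained in the ideal of series whose
coefficients at monomials free of `a, b, e` are small.
-/

set_option autoImplicit false

noncomputable section

namespace Fermat.Agent.RT.Germ

open MvPowerSeries

/-- Coordinates: `(v, 0, ·) = (a, b, e)`, `(v, 1, ·) = (s, t, r)` and further free ones. -/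
abbrev Coord (V ρ : Type*) := (V × Fin 2 × Fin 3) ⊕ ρ

variable {V ρ : Type*} {K : Type*} [NontriviallyNormedField K] [IsUltrametricDist K]
  {O : Type*} [CommRing O] (δ : V → O)

/-- The relation `a² + be - δ²`. -/
def conicRel (v : V) : MvPowerSeries (Coord V ρ) O :=
  X (Sum.inl (v, 0, 0)) ^ 2 + X (Sum.inl (v, 0, 1)) * X (Sum.inl (v, 0, 2)) - C (δ v) ^ 2

/-- The minors. -/
def minorRel (v : V) (i j : Fin 3) : MvPowerSeries (Coord V ρ) O :=
  X (Sum.inl (v, 0, i)) * X (Sum.inl (v, 1, j)) - X (Sum.inl (v, 0, j)) * X (Sum.inl (v, 1, i))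

/-- The ideal of the relations. -/
def relIdeal : Ideal (MvPowerSeries (Coord V ρ) O) :=
  Ideal.span (Set.range (conicRel δ) ∪
    Set.range fun p : V × Fin 3 × Fin 3 => minorRel p.1 p.2.1 p.2.2)

variable (φ : O →+* ball1 K)

theorem coe_two : ((2 : ball1 K) : K) = 2 := map_ofNat (ball1 K).subtype 2

/-- The direction as series. -/
def dirSeries (x y : MvPowerSeries (V × Fin 3 ⊕ ρ) (ball1 K)) :
    Fin 3 → MvPowerSeries (V × Fin 3 ⊕ ρ) (ball1 K) :=
  ![1 + 2 * x * y, -2 * x, 2 * y * (1 + x * y)]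

/-- The expansion at the diagonal point. -/
def germX : Coord V ρ → MvPowerSeries (V × Fin 3 ⊕ ρ) (ball1 K)
  | Sum.inl (v, i, j) =>
      (if i = 0 then C (φ (δ v)) else X (Sum.inl (v, 2))) *
        dirSeries (X (Sum.inl (v, 0))) (X (Sum.inl (v, 1))) j
  | Sum.inr r => X (Sum.inr r)

variable {δ φ}

theorem germX_small (hδ : ∀ v, ‖(φ (δ v) : K)‖ < 1) (c : Coord V ρ) :
    ‖((constantCoeff (germX δ φ c) : ball1 K) : K)‖ < 1 := by
  obtain ⟨v, i, j⟩ | r := c
  · simp only [germX, map_mul, Subring.coe_mul, norm_mul]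
    refine mul_lt_one_of_nonneg_of_lt_one_left (norm_nonneg _) ?_ (norm_coe_le _)
    split_ifs
    · simpa using hδ v
    · simp
  · simp [germX]

variable [CompleteSpace K] [Finite V] [Finite ρ] (hδ : ∀ v, ‖(φ (δ v) : K)‖ < 1)

/-- The germ ideal. -/
def germIdeal : Ideal (MvPowerSeries (Coord V ρ) O) :=
  RingHom.ker (compose φ (germX δ φ) (germX_small hδ))

theorem germIdeal_isPrime : (germIdeal (ρ := ρ) hδ).IsPrime :=
  haveI : IsDomain (MvPowerSeries (V × Fin 3 ⊕ ρ) (ball1 K)) := NoZeroDivisors.to_isDomain _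
  RingHom.ker_isPrime _

theorem relIdeal_le_germIdeal : relIdeal δ ≤ germIdeal (ρ := ρ) hδ := by
  rw [relIdeal, Ideal.span_le, Set.union_subset_iff]
  constructor
  · rintro _ ⟨v, rfl⟩
    simp only [SetLike.mem_coe, germIdeal, RingHom.mem_ker, conicRel, map_sub, map_add, map_pow,
      map_mul, compose_X, compose_C]
    simp only [germX, dirSeries, if_true, Matrix.cons_val]
    ring
  · rintro _ ⟨⟨v, i, j⟩, rfl⟩
    simp only [SetLike.mem_coe, germIdeal, RingHom.mem_ker, minorRel, map_sub, map_mul, compose_X]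
    simp only [germX, if_true, show (1 : Fin 2) ≠ 0 by decide, if_false]
    ring

/-- The germ points at the place `v`. -/
def IsGermAt (x : Coord V ρ → ball1 K) (v : V) : Prop :=
  ∃ p q t : K, ‖p‖ < 1 ∧ ‖q‖ < 1 ∧ ‖t‖ < 1 ∧
    (∀ j, (x (Sum.inl (v, 0, j)) : K) = φ (δ v) * dir p q j) ∧
    ∀ j, (x (Sum.inl (v, 1, j)) : K) = t * dir p q j

variable [IsAlgClosed K] (h2 : ‖(2 : K)‖ = 1) (hδ0 : ∀ v, (φ (δ v) : K) ≠ 0)

include h2 hδ0 in
/-- A series in the germ ideal vanishes at every point satisfying the relations. -/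
theorem ev_eq_zero_of_mem_germIdeal {f : MvPowerSeries (Coord V ρ) O}
    (hf : f ∈ germIdeal (ρ := ρ) hδ) (x : Coord V ρ → ball1 K) (hx : ∀ c, ‖(x c : K)‖ < 1)
    (hu : ∀ v, (x (Sum.inl (v, 0, 0)) : K) ^ 2 +
      x (Sum.inl (v, 0, 1)) * x (Sum.inl (v, 0, 2)) = (φ (δ v) : K) ^ 2)
    (hminor : ∀ v i j, (x (Sum.inl (v, 0, i)) : K) * x (Sum.inl (v, 1, j)) =
      x (Sum.inl (v, 0, j)) * x (Sum.inl (v, 1, i))) :
    ev φ x hx f = 0 := by
  classical
  have := Fintype.ofFinite V
  suffices H : ∀ s : Finset V, ∀ (x : Coord V ρ → ball1 K) (hx : ∀ c, ‖(x c : K)‖ < 1),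
      (∀ v ∈ s, ((x (Sum.inl (v, 0, 0)) : K) ^ 2 +
        x (Sum.inl (v, 0, 1)) * x (Sum.inl (v, 0, 2)) = (φ (δ v) : K) ^ 2) ∧
        ∀ i j, (x (Sum.inl (v, 0, i)) : K) * x (Sum.inl (v, 1, j)) =
          x (Sum.inl (v, 0, j)) * x (Sum.inl (v, 1, i))) →
      (∀ v, v ∉ s → IsGermAt (δ := δ) (φ := φ) x v) → ev φ x hx f = 0 from
    H Finset.univ x hx (fun v _ => ⟨hu v, hminor v⟩) fun v h => absurd (Finset.mem_univ v) h
  intro s
  induction s using Finset.induction with
  | empty =>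
    intro x hx _ hg
    choose p q t hp hq ht h0 h1 using fun v => hg v (Finset.notMem_empty v)
    let b : V × Fin 3 ⊕ ρ → ball1 K := fun c => match c with
      | Sum.inl (v, k) => ![⟨p v, (hp v).le⟩, ⟨q v, (hq v).le⟩, ⟨t v, (ht v).le⟩] k
      | Sum.inr r => x (Sum.inr r)
    have hb : ∀ c, ‖(b c : K)‖ < 1 := by
      rintro (⟨v, k⟩ | r)
      · fin_cases k <;> simp [b, hp, hq, ht]
      · exact hx _
    have hcomp : compose φ (germX δ φ) (germX_small hδ) f = 0 := hf
    have := evBall_compose φ (germX δ φ) (germX_small hδ) b hb f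
    rw [hcomp, map_zero] at this
    rw [this]
    refine ev_congr φ (funext fun c => Subtype.ext ?_) _ _ f
    obtain ⟨v, i, j⟩ | r := c
    · fin_cases i <;> fin_cases j <;>
        simp [germX, dirSeries, evBall_C, evBall_X, h0, h1, dir, b, map_ofNat, coe_two]
    · simp [germX, evBall_X, b]
  | @insert v s hv ih =>
    intro x hx hrel hg
    let upd : (Fin 2 → Fin 3 → ball1 K) → Coord V ρ → ball1 K := fun P c => match c with
      | Sum.inl (w, i, j) => if w = v then P i j else x (Sum.inl (w, i, j))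
      | Sum.inr r => x (Sum.inr r)
    have hupd : ∀ (P : Fin 2 → Fin 3 → ball1 K), (∀ i j, ‖(P i j : K)‖ < 1) →
        ∀ c, ‖(upd P c : K)‖ < 1 := fun P hP c => by
      obtain ⟨w, i, j⟩ | r := c
      · simp only [upd]
        split_ifs
        exacts [hP i j, hx _]
      · exact hx _
    let S : (Fin 2 → Fin 3 → ball1 K) → Prop := fun P =>
      ∀ hP : ∀ i j, ‖(P i j : K)‖ < 1, ev φ (upd P) (hupd P hP) f = 0
    have hpers : Persists S := by
      intro c hc0 hc ε hε hsmall z hz P hP hPlt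
      let ser : Fin 2 → Fin 3 → MvPowerSeries (Fin 1) (ball1 K) := fun i j =>
        C ⟨c i j 0, hc i j 0⟩ + C ⟨c i j 1, hc i j 1⟩ * X 0 +
          C ⟨c i j 2, hc i j 2⟩ * X 0 ^ 2 + C ⟨c i j 3, hc i j 3⟩ * X 0 ^ 3
      let fam : Coord V ρ → MvPowerSeries (Fin 1) (ball1 K) := fun e => match e with
        | Sum.inl (w, i, j) => if w = v then ser i j else C (x (Sum.inl (w, i, j)))
        | Sum.inr r => C (x (Sum.inr r))
      have hfam : ∀ e, ‖((constantCoeff (fam e) : ball1 K) : K)‖ < 1 := by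
        rintro (⟨w, i, j⟩ | r)
        · simp only [fam]
          split_ifs
          · simpa [ser] using hc0 i j
          · simpa using hx _
        · simpa [fam] using hx _
      have hval : ∀ (b : Fin 1 → ball1 K) (hb : ∀ i, ‖(b i : K)‖ < 1)
          (Q : Fin 2 → Fin 3 → ball1 K), (∀ i j, (Q i j : K) = cubic (c i j) (b 0 : K)) →
          (fun e => evBall b hb (fam e)) = upd Q := by
        intro b hb Q hQ
        funext e
        obtain ⟨w, i, j⟩ | r := e
        · simp only [fam, upd]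
          split_ifs
          · refine Subtype.ext ?_
            simp [ser, evBall_C, evBall_X, hQ, cubic]
          · exact evBall_C _
        · exact evBall_C _
      have key := ev_family_eq_zero φ fam hfam f hε (fun b hb hbε => ?_)
        (fun _ => ⟨z, hz.le⟩) (fun _ => hz)
      · rw [← key]
        exact ev_congr φ (hval _ _ P hP).symm _ _ f
      · let Q : Fin 2 → Fin 3 → ball1 K := fun i j =>
          ⟨cubic (c i j) (b 0 : K), (norm_cubic_lt (hc0 i j) (hc i j) (hb 0)).le⟩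
        have := hsmall (b 0) (hbε 0) (hb 0) Q (fun i j => rfl)
          (fun i j => norm_cubic_lt (hc0 i j) (hc i j) (hb 0))
        rw [← this]
        exact ev_congr φ (hval b hb Q fun i j => rfl) _ _ f
    have hgerm : GermSat S (φ (δ v) : K) := by
      intro p q t hp hq ht P h0 h1 hP
      refine ih (upd P) (hupd P hP) (fun w hw => ?_) (fun w hw => ?_)
      · have hwv : w ≠ v := fun h => hv (h ▸ hw)
        simpa [upd, hwv] using hrel w (Finset.mem_insert_of_mem hw)
      · by_cases hwv : w = v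
        · subst hwv
          exact ⟨p, q, t, hp, hq, ht, fun j => by simpa [upd] using h0 j,
            fun j => by simpa [upd] using h1 j⟩
        · simpa [IsGermAt, upd, hwv] using hg w (by simp [hw, hwv])
    obtain ⟨hu, hm⟩ := hrel v (Finset.mem_insert_self v s)
    have := sat_of_relations hpers h2 (hδ0 v) (hδ v) hgerm
      (u := fun j => (x (Sum.inl (v, 0, j)) : K)) (w := fun j => (x (Sum.inl (v, 1, j)) : K))
      (fun j => hx _) (fun j => hx _) hu (hm 0 1) (hm 0 2) (hm 1 2)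
      (fun i j => x (Sum.inl (v, i, j))) (fun j => rfl) (fun j => rfl) (fun i j => hx _)
    rw [← this]
    refine ev_congr φ (funext fun c => ?_) _ _ f
    obtain ⟨w, i, j⟩ | r := c
    · by_cases hwv : w = v
      · subst hwv; simp [upd]
      · simp [upd, hwv]
    · rfl

include h2 hδ0 in
/-- Coefficients of a series in the germ ideal at monomials free of `a, b, e` are small. -/
theorem norm_coeff_lt_one_of_mem_germIdeal {r₀ : ℝ} (hr₀ : r₀ < 1)
    (hdisc : ∀ c : O, ‖(φ c : K)‖ < 1 → ‖(φ c : K)‖ ≤ r₀)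
    {f : MvPowerSeries (Coord V ρ) O} (hf : f ∈ germIdeal (ρ := ρ) hδ)
    {d : Coord V ρ →₀ ℕ} (hd : ∀ v j, d (Sum.inl (v, 0, j)) = 0) :
    ‖(φ (coeff d f) : K)‖ < 1 := by
  classical
  have := Fintype.ofFinite V
  have := Fintype.ofFinite ρ
  by_contra hne
  have hd1 : ‖(φ (coeff d f) : K)‖ = 1 := le_antisymm (norm_coe_le _) (not_lt.mp hne)
  obtain ⟨k, hk, ⟨d₀, ⟨hd₀, hd₀1⟩, hmin⟩, hsep⟩ :=
    exists_weights (A := {d : Coord V ρ →₀ ℕ | (∀ v j, d (Sum.inl (v, 0, j)) = 0) ∧
      ‖(φ (coeff d f) : K)‖ = 1}) ⟨d, hd, hd1⟩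
  set w₀ := weight k d₀
  set N := ∑ c, k c
  obtain ⟨c₁, hc₁, hc₁1⟩ : ∃ c₁ : ℝ, (r₀ ≤ c₁ ∧ ∀ v, ‖(φ (δ v) : K)‖ ≤ c₁) ∧ c₁ < 1 := by
    rcases (Finset.univ : Finset V).eq_empty_or_nonempty with h | h
    · exact ⟨r₀, ⟨le_rfl, fun v => absurd (Finset.mem_univ v) (by simp [h])⟩, hr₀⟩
    · exact ⟨max r₀ (Finset.univ.sup' h fun v => ‖(φ (δ v) : K)‖),
        ⟨le_max_left _ _, fun v => le_max_of_le_right
          (Finset.le_sup' (fun v => ‖(φ (δ v) : K)‖) (Finset.mem_univ v))⟩,
        max_lt hr₀ ((Finset.sup'_lt_iff h).mpr fun v _ => hδ v)⟩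
  obtain ⟨z, hz0, hz1, hzc⟩ := exists_eta (K := K) hc₁1 (w₀ + N)
  have hzp : 0 < ‖z‖ := norm_pos_iff.mpr hz0
  have hkN : ∀ c, k c ≤ N := fun c =>
    Finset.single_le_sum (f := k) (fun _ _ => Nat.zero_le _) (Finset.mem_univ c)
  have hroot : ∀ v, ∃ g : K, g ^ 2 = z ^ (2 * k (Sum.inl (v, 1, 0))) +
      z ^ (k (Sum.inl (v, 1, 1)) + k (Sum.inl (v, 1, 2))) :=
    fun v => IsAlgClosed.exists_pow_nat_eq _ two_pos
  choose g hg using hroot
  have hgn : ∀ v, ‖z‖ ^ k (Sum.inl (v, 1, 0)) ≤ ‖g v‖ := by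
    intro v
    have hne' : 2 * k (Sum.inl (v, 1, 0)) ≠ k (Sum.inl (v, 1, 1)) + k (Sum.inl (v, 1, 2)) := by
      intro h
      have key := hsep (Finsupp.single (Sum.inl (v, 1, 0)) 2)
        (Finsupp.single (Sum.inl (v, 1, 1)) 1 + Finsupp.single (Sum.inl (v, 1, 2)) 1)
        (by simp [tdeg, Finsupp.single_apply])
        (by simp [tdeg, Finsupp.single_apply, Finset.sum_add_distrib])
        (by simp [weight, Finsupp.single_apply, mul_add, Finset.sum_add_distrib]; omega)
      have := congrArg (fun e => e (Sum.inl (v, 1, 0))) key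
      simp at this
    have hn : ‖z ^ (2 * k (Sum.inl (v, 1, 0)))‖ ≠
        ‖z ^ (k (Sum.inl (v, 1, 1)) + k (Sum.inl (v, 1, 2)))‖ := by
      rw [norm_pow, norm_pow]
      exact fun h => hne' (pow_right_injective₀ hzp hz1.ne h)
    have := IsUltrametricDist.norm_add_eq_max_of_norm_ne_norm hn
    rw [← hg, norm_pow, norm_pow] at this
    refine le_of_pow_le_pow_left₀ two_ne_zero (norm_nonneg _) ?_
    rw [this, ← pow_mul, mul_comm]
    exact le_max_left _ _
  have hg0 : ∀ v, g v ≠ 0 := fun v =>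
    norm_pos_iff.mp (lt_of_lt_of_le (pow_pos hzp _) (hgn v))
  set B := max (‖z‖ ^ (w₀ + 1)) (c₁ / ‖z‖ ^ N) with hB
  have hBlt : B < ‖z‖ ^ w₀ := max_lt (by rw [pow_succ]; exact mul_lt_of_lt_one_right (pow_pos hzp _) hz1)
    (by rw [div_lt_iff₀ (pow_pos hzp _), ← pow_add]; exact hzc)
  have hub : ∀ v j, ‖(φ (δ v) : K) * z ^ k (Sum.inl (v, 1, j)) / g v‖ ≤ c₁ / ‖z‖ ^ N := by
    intro v j
    rw [norm_div, norm_mul, norm_pow]
    refine div_le_div₀ ((norm_nonneg _).trans (hc₁.2 v)) ?_ (pow_pos hzp _) ?_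
    · exact (mul_le_of_le_one_right (norm_nonneg _) (pow_le_one₀ (norm_nonneg _) hz1.le)).trans
        (hc₁.2 v)
    · exact (pow_le_pow_of_le_one (norm_nonneg _) hz1.le (hkN _)).trans (hgn v)
  have hB1 : B < 1 := hBlt.trans_le (pow_le_one₀ (norm_nonneg _) hz1.le)
  let x : Coord V ρ → K := fun c => match c with
    | Sum.inl (v, i, j) => if i = 0 then (φ (δ v) : K) * z ^ k (Sum.inl (v, 1, j)) / g v
        else z ^ k (Sum.inl (v, i, j))
    | Sum.inr r => z ^ k (Sum.inr r)
  have hx : ∀ c, ‖x c‖ < 1 := by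
    rintro (⟨v, i, j⟩ | r)
    · simp only [x]
      split_ifs
      · exact ((hub v j).trans (le_max_right _ _)).trans_lt hB1
      · exact norm_pow_lt_one hz1 (hk _)
    · exact norm_pow_lt_one hz1 (hk _)
  have hev := ev_eq_zero_of_mem_germIdeal (ρ := ρ) hδ h2 hδ0 hf (toBall x hx) hx
    (fun v => by
      have := hg v
      simp [toBall, x]
      field_simp [hg0 v]
      rw [this]
      ring)
    (fun v i j => by simp [toBall, x]; ring)
  have hprod : ∀ e : Coord V ρ →₀ ℕ, (∀ v j, e (Sum.inl (v, 0, j)) = 0) →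
      (e.prod fun c n => ((toBall x hx c : ball1 K) : K) ^ n) = z ^ weight k e := fun e he => by
    rw [← prod_pow_eq k z e]
    refine Finsupp.prod_congr fun c hc => ?_
    obtain ⟨v, i, j⟩ | r := c
    · have hi : i ≠ 0 := fun h => Finsupp.mem_support_iff.mp hc (h ▸ he v j)
      simp [toBall, x, hi]
    · simp [toBall, x]
  have hterm := norm_ev_sub_term_le φ (toBall x hx) hx f d₀
    (B := B) (le_max_of_le_left (pow_nonneg (norm_nonneg _) _)) (fun e he => ?_)
  · rw [hev, ZeroMemClass.coe_zero, zero_sub, norm_neg, norm_mul, hd₀1, one_mul] at hterm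
    rw [hprod d₀ hd₀, norm_pow] at hterm
    exact absurd hterm (not_le.mpr hBlt)
  · rw [norm_mul]
    by_cases hue : ∀ v j, e (Sum.inl (v, 0, j)) = 0
    · rw [hprod e hue, norm_pow]
      rcases lt_or_eq_of_le (norm_coe_le (φ (coeff e f))) with hlt | heq
      · refine le_max_of_le_right ?_
        calc ‖(φ (coeff e f) : K)‖ * ‖z‖ ^ weight k e ≤ c₁ * 1 :=
              mul_le_mul ((hdisc _ hlt).trans hc₁.1) (pow_le_one₀ (norm_nonneg _) hz1.le)
                (pow_nonneg (norm_nonneg _) _) ((norm_nonneg _).trans ((hdisc _ hlt).trans hc₁.1))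
          _ ≤ c₁ / ‖z‖ ^ N := by
              rw [mul_one, le_div_iff₀ (pow_pos hzp _)]
              exact mul_le_of_le_one_right ((norm_nonneg _).trans ((hdisc _ hlt).trans hc₁.1))
                (pow_le_one₀ (norm_nonneg _) hz1.le)
      · rw [heq, one_mul]
        exact le_max_of_le_left
          (pow_le_pow_of_le_one (norm_nonneg _) hz1.le (hmin e ⟨hue, heq⟩ he))
    · push Not at hue
      obtain ⟨v, j, hvj⟩ := hue
      refine le_max_of_le_right ((mul_le_of_le_one_left (norm_nonneg _) (norm_coe_le _)).trans ?_)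
      rw [Finsupp.prod_fintype _ _ fun c => pow_zero _, norm_prod,
        ← Finset.mul_prod_erase _ _ (Finset.mem_univ (Sum.inl (v, 0, j) : Coord V ρ))]
      refine le_trans (mul_le_of_le_one_right (norm_nonneg _) ?_) ?_
      · exact Finset.prod_le_one (fun c _ => norm_nonneg _) fun c _ => by
          rw [norm_pow]; exact pow_le_one₀ (norm_nonneg _) (norm_coe_le _)
      · rw [norm_pow]
        refine (pow_le_of_le_one (norm_nonneg _) (norm_coe_le _) hvj).trans ?_
        simpa [toBall, x] using hub v j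

end Fermat.Agent.RT.Germ
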